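import Mathlib
import Fermat.Prelude.Def_ModularCurve_JqCoeff
import Fermat.Agent.ProgramR.QExp.JExp

/-!
# S16 library, package M3: the formal Eisenstein series `E₆`

* `eisenstein6 : PowerSeries ℤ` is `1 - 504 ∑ σ₅(n) qⁿ`;
* `qExpansion_E₆ : qExpansion 1 E₆ = eisenstein6.map (Int.castRingHom ℂ)`;
* `eisenstein4_map_zmod`, `eisenstein6_map_zmod`: `E₄ ≡ 1 mod m` for `m ∣ 240`, `E₆ ≡ 1 mod m` for
  `m ∣ 504`.
-/

set_option autoImplicit false

noncomputable section

open Complex Filter Function Topology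
open UpperHalfPlane hiding I
open scoped Real Manifold MatrixGroups
open ModularForm EisensteinSeries

namespace Fermat.Agent.S16lib.M3

/-- The formal `q`-expansion `1 - 504 ∑ σ₅(n) qⁿ` of `E₆`. -/
def eisenstein6 : PowerSeries ℤ :=
  PowerSeries.mk fun n => if n = 0 then 1 else -504 * ∑ d ∈ n.divisors, (d : ℤ) ^ 5

@[simp]
theorem constantCoeff_eisenstein6 : PowerSeries.constantCoeff eisenstein6 = 1 := by
  rw [← PowerSeries.coeff_zero_eq_constantCoeff]
  simp [eisenstein6]

/-- The `q`-expansion of `E₆` is the formal `1 - 504 ∑ σ₅(n) qⁿ`. -/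
theorem qExpansion_E₆ :
    qExpansion 1 (E₆ : ℍ → ℂ) = eisenstein6.map (Int.castRingHom ℂ) := by
  ext m
  rw [EisensteinSeries.E_qExpansion_coeff (by norm_num : 3 ≤ 6) (by decide) m,
    PowerSeries.coeff_map, eisenstein6, PowerSeries.coeff_mk]
  split_ifs with hm
  · simp
  · have hb : bernoulli 6 = 1 / 42 := by
      decide +kernel
    rw [hb]
    simp only [ArithmeticFunction.sigma_apply, eq_intCast]
    push_cast
    ring

/-- `E₄ ≡ 1 mod m` for `m ∣ 240`. -/
theorem eisenstein4_map_zmod (m : ℕ) (hm : m ∣ 240) :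
    ModularCurve.eisenstein4.map (Int.castRingHom (ZMod m)) = 1 := by
  ext n
  rw [PowerSeries.coeff_map, ModularCurve.eisenstein4, PowerSeries.coeff_mk, PowerSeries.coeff_one]
  split_ifs with hn
  · simp
  · rw [map_mul]
    have : (Int.castRingHom (ZMod m)) 240 = 0 := by
      rw [eq_intCast]
      have h : ((240 : ℕ) : ZMod m) = 0 := (ZMod.natCast_eq_zero_iff 240 m).mpr hm
      exact_mod_cast h
    rw [this, zero_mul]

/-- `E₆ ≡ 1 mod m` for `m ∣ 504`. -/
theorem eisenstein6_map_zmod (m : ℕ) (hm : m ∣ 504) :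
    eisenstein6.map (Int.castRingHom (ZMod m)) = 1 := by
  ext n
  rw [PowerSeries.coeff_map, eisenstein6, PowerSeries.coeff_mk, PowerSeries.coeff_one]
  split_ifs with hn
  · simp
  · rw [map_mul]
    have : (Int.castRingHom (ZMod m)) (-504) = 0 := by
      rw [eq_intCast]
      have h : ((504 : ℕ) : ZMod m) = 0 := (ZMod.natCast_eq_zero_iff 504 m).mpr hm
      push_cast
      rw [neg_eq_zero]
      exact_mod_cast h
    rw [this, zero_mul]

end Fermat.Agent.S16lib.M3
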