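import Mathlib
import Fermat.Agent.S16lib.Dict.Transfer

/-!
# S16 library, package M3 (the `W`-sign test): the formal core

Let `y ∈ WH0 Γ₀(p)` have a rational `q`-expansion at `i∞` with coefficients in `ℓ^e ℤ_(ℓ)`, and let
its `t`-expansion at the cusp `0` be rational and congruent to `u · U` mod `ℓ^e`, where `U ∈ ℤ((t))`
is nonzero mod `ℓ`.  Then `u ∈ ℓ^e ℤ_(ℓ)`.
-/

set_option autoImplicit false

noncomputable section

open ModularCurve HahnSeries Polynomial CongruenceSubgroup UpperHalfPlane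
open scoped MatrixGroups

namespace Fermat.Agent.S16lib.M3

open Fermat.Agent.S28lib Fermat.Agent.ProgramR Fermat.Agent.ProgramR.BarField
  Fermat.Agent.ProgramR.CuspLocal Fermat.Agent.S16lib.Dict

theorem coeffMap_ratCast_injective :
    Function.Injective (coeffMap (algebraMap ℚ ℂ)) := by
  intro f g h
  ext n
  have := congrArg (fun w => w.coeff n) h
  simp only [coeffMap_coeff] at this
  exact (algebraMap ℚ ℂ).injective this

theorem coeffMap_int_complex (B : LaurentSeries ℤ) :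
    coeffMap (Int.castRingHom ℂ) B =
      coeffMap (algebraMap ℚ ℂ) (coeffMap (Int.castRingHom ℚ) B) := by
  ext n
  simp [coeffMap_coeff]

variable (ℓ : ℕ) [hℓ : Fact ℓ.Prime]

/-- An integer not divisible by `ℓ` is a unit of `ℤ_(ℓ)`. -/
theorem inv_intCast_mem_ratLocalizedAt {m : ℤ} (hm : ¬ (ℓ : ℤ) ∣ m) :
    ((m : ℚ))⁻¹ ∈ GaloisRep.ratLocalizedAt ℓ := by
  show (((m : ℚ))⁻¹).den.Coprime ℓ
  have hm0 : m ≠ 0 := by
    rintro rfl
    exact hm (dvd_zero _)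
  rw [Rat.inv_intCast_den, if_neg hm0]
  rw [Nat.coprime_comm, Nat.Prime.coprime_iff_not_dvd hℓ.out]
  intro h
  exact hm (Int.natCast_dvd.mpr h)

/-- cancel an integer unit -/
theorem mem_lpow_of_mul_intCast_mem {e : ℕ} {u : ℚ} {m : ℤ} (hm : ¬ (ℓ : ℤ) ∣ m)
    (h : u * (m : ℚ) ∈ lpow ℓ e) : u ∈ lpow ℓ e := by
  have hm0 : (m : ℚ) ≠ 0 := by
    intro h0
    have : m = 0 := by exact_mod_cast h0
    exact hm (this ▸ dvd_zero _)
  have h1 := mul_mem_lpow ℓ ((mem_lpow_zero ℓ).mpr (inv_intCast_mem_ratLocalizedAt ℓ hm)) h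
  rwa [mul_comm u, ← mul_assoc, inv_mul_cancel₀ hm0, one_mul] at h1

variable (p : ℕ) [hp : Fact p.Prime]

/-- **The formal core of the `W`-sign test.** -/
theorem mem_lpow_of_cusp_zero_congr (hℓp : ℓ ≠ p) (y : ↥(WH0 (Gamma0 p)))
    (yq : LaurentSeries ℚ) (hy : qExpWH0 p y = coeffMap (algebraMap ℚ ℂ) yq)
    (e : ℕ) (hs : yq ∈ seriesIn (lpow ℓ e))
    (Yq : LaurentSeries ℚ) (hY : cuspExp p (gS 0) y = coeffMap (algebraMap ℚ ℂ) Yq)
    (u : ℚ) (U : LaurentSeries ℤ) (hU : coeffMap (Int.castRingHom (ZMod ℓ)) U ≠ 0)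
    (hYU : Yq - HahnSeries.C u * coeffMap (Int.castRingHom ℚ) U ∈ seriesIn (lpow ℓ e)) :
    u ∈ lpow ℓ e := by
  obtain ⟨B, M, hB, hBM⟩ := exists_transfer_cusp_zero p ℓ hℓp y yq hy e hs
  -- descend the relation to `ℚ((t))`
  have h1 : coeffMap (Int.castRingHom ℚ) B * Yq =
      HahnSeries.C ((ℓ : ℚ) ^ e) * coeffMap (Int.castRingHom ℚ) M := by
    apply coeffMap_ratCast_injective
    rw [map_mul, map_mul, ← coeffMap_int_complex, ← coeffMap_int_complex, ← hY, hBM, coeffMap_C]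
    congr 2
    simp
  have hBint : coeffMap (Int.castRingHom ℚ) B ∈ seriesIn (lpow ℓ 0) :=
    coeffMap_int_mem_seriesIn (intCast_mem_lpow_zero ℓ) B
  -- `B · Yq ∈ ℓ^e ℤ_(ℓ)((t))`
  have h2 : coeffMap (Int.castRingHom ℚ) B * Yq ∈ seriesIn (lpow ℓ e) := by
    rw [h1]
    have h3 : coeffMap (Int.castRingHom ℚ) M ∈ seriesIn (lpow ℓ 0) :=
      coeffMap_int_mem_seriesIn (intCast_mem_lpow_zero ℓ) M
    have := (C_pow_mul_mem_seriesIn_iff ℓ (s := 0) (t := e)).mpr h3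
    rwa [zero_add] at this
  -- `B · (Yq - u U) ∈ ℓ^e ℤ_(ℓ)((t))`
  have h4 : coeffMap (Int.castRingHom ℚ) B *
      (Yq - HahnSeries.C u * coeffMap (Int.castRingHom ℚ) U) ∈ seriesIn (lpow ℓ e) :=
    mul_mem_seriesIn (fun _ ha _ hz => mul_mem_lpow ℓ ha hz) hBint hYU
  -- hence `u · (B U) ∈ ℓ^e ℤ_(ℓ)((t))`
  have h5 : HahnSeries.C u * coeffMap (Int.castRingHom ℚ) (B * U) ∈ seriesIn (lpow ℓ e) := by
    have : HahnSeries.C u * coeffMap (Int.castRingHom ℚ) (B * U) =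
        coeffMap (Int.castRingHom ℚ) B * Yq -
          coeffMap (Int.castRingHom ℚ) B *
            (Yq - HahnSeries.C u * coeffMap (Int.castRingHom ℚ) U) := by
      rw [map_mul]; ring
    rw [this]
    exact (seriesIn (lpow ℓ e)).sub_mem h2 h4
  -- a coefficient of `B U` prime to `ℓ`
  have hBU : coeffMap (Int.castRingHom (ZMod ℓ)) (B * U) ≠ 0 := by
    rw [map_mul]
    exact mul_ne_zero hB hU
  obtain ⟨n, hn⟩ : ∃ n, ¬ (ℓ : ℤ) ∣ (B * U).coeff n := by
    by_contra hcon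
    push Not at hcon
    apply hBU
    ext n
    rw [coeffMap_coeff, HahnSeries.coeff_zero]
    exact (ZMod.intCast_zmod_eq_zero_iff_dvd _ _).mpr (hcon n)
  have h6 := h5 n
  rw [HahnSeries.C_mul_eq_smul, HahnSeries.coeff_smul, smul_eq_mul, coeffMap_coeff] at h6
  exact mem_lpow_of_mul_intCast_mem ℓ hn h6

end Fermat.Agent.S16lib.M3
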