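import Mathlib
import Fermat.Agent.S28lib.Series
import Fermat.Agent.S16lib.M3.E6

/-!
# S16 library, package M3: the formal series of the `W`-sign test

Over a commutative ring `R`:
* `E4L R`, `E6L R`, `DeltaInvL R` : the Laurent series of `E₄`, `E₆`, `1/Δ`;
* `yInf R A c = E₆ (A E₄ - c E₆)/Δ` (the shape of the expansion at `i∞`);
* `yZero R p B c = E₆(t^p) (B(t) E₄(t^p) - c E₆(t^p))/Δ(t^p)` (the shape at the cusp `0`);
* naturality in `R` and the values modulo `m ∣ 24`.
-/

set_option autoImplicit false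

noncomputable section

namespace Fermat.Agent.S16lib.M3

open ModularCurve HahnSeries
open Fermat.Agent.S28lib

section CommRing

variable (R : Type*) [CommRing R] {S : Type*} [CommRing S]

/-- the Laurent series of `E₄` over `R` -/
def E4L : LaurentSeries R :=
  HahnSeries.ofPowerSeries ℤ R (eisenstein4.map (Int.castRingHom R))

/-- the Laurent series of `E₆` over `R` -/
def E6L : LaurentSeries R :=
  HahnSeries.ofPowerSeries ℤ R (eisenstein6.map (Int.castRingHom R))

/-- the Laurent series of `1/Δ` over `R` -/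
def DeltaInvL : LaurentSeries R :=
  HahnSeries.single (-1 : ℤ) 1 *
    HahnSeries.ofPowerSeries ℤ R (dedekindEtaUnitInv.map (Int.castRingHom R))

theorem DeltaQ_mul_DeltaInvL : DeltaQ R * DeltaInvL R = 1 := by
  have h1 : HahnSeries.ofPowerSeries ℤ R (dedekindEtaUnit.map (Int.castRingHom R)) *
      HahnSeries.ofPowerSeries ℤ R (dedekindEtaUnitInv.map (Int.castRingHom R)) = 1 := by
    rw [← map_mul, ← map_mul, dedekindEtaUnit_mul_inv, map_one, map_one]
  have hs : (HahnSeries.single (1 : ℤ) (1 : R)) * HahnSeries.single (-1 : ℤ) 1 = 1 := by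
    rw [HahnSeries.single_mul_single]
    simp
  calc DeltaQ R * DeltaInvL R
      = (HahnSeries.single (1 : ℤ) (1 : R) * HahnSeries.single (-1 : ℤ) 1) *
          (HahnSeries.ofPowerSeries ℤ R (dedekindEtaUnit.map (Int.castRingHom R)) *
            HahnSeries.ofPowerSeries ℤ R (dedekindEtaUnitInv.map (Int.castRingHom R))) := by
        rw [DeltaQ, DeltaInvL]; ring
    _ = 1 := by rw [hs, h1, one_mul]

variable {R}

theorem map_map_intCast (f : R →+* S) (P : PowerSeries ℤ) :
    (P.map (Int.castRingHom R)).map f = P.map (Int.castRingHom S) := by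
  rw [← RingHom.comp_apply (PowerSeries.map f) (PowerSeries.map (Int.castRingHom R)),
    ← PowerSeries.map_comp, RingHom.ext_int (f.comp (Int.castRingHom R)) (Int.castRingHom S)]

theorem coeffMap_E4L (f : R →+* S) : coeffMap f (E4L R) = E4L S := by
  rw [E4L, coeffMap_ofPowerSeries, map_map_intCast, E4L]

theorem coeffMap_E6L (f : R →+* S) : coeffMap f (E6L R) = E6L S := by
  rw [E6L, coeffMap_ofPowerSeries, map_map_intCast, E6L]

theorem coeffMap_DeltaInvL (f : R →+* S) : coeffMap f (DeltaInvL R) = DeltaInvL S := by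
  rw [DeltaInvL, map_mul, coeffMap_single, map_one, coeffMap_ofPowerSeries, map_map_intCast,
    DeltaInvL]

variable (R)

/-- `E₆ (A E₄ - c E₆)/Δ` -/
def yInf (A : PowerSeries R) (c : R) : LaurentSeries R :=
  DeltaInvL R * (E6L R * (HahnSeries.ofPowerSeries ℤ R A * E4L R - HahnSeries.C c * E6L R))

/-- `E₆(t^p) (B(t) E₄(t^p) - c E₆(t^p))/Δ(t^p)` -/
def yZero (p : ℕ) [NeZero p] (B : PowerSeries R) (c : R) : LaurentSeries R :=
  qExpand R p (DeltaInvL R) * (qExpand R p (E6L R) *
    (HahnSeries.ofPowerSeries ℤ R B * qExpand R p (E4L R) - HahnSeries.C c * qExpand R p (E6L R)))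

variable {R}

theorem coeffMap_yInf (f : R →+* S) (A : PowerSeries R) (c : R) :
    coeffMap f (yInf R A c) = yInf S (A.map f) (f c) := by
  rw [yInf, yInf, map_mul, map_mul, map_sub, map_mul, map_mul, coeffMap_DeltaInvL, coeffMap_E6L,
    coeffMap_E4L, coeffMap_ofPowerSeries, coeffMap_C]

theorem coeffMap_yZero (f : R →+* S) (p : ℕ) [NeZero p] (B : PowerSeries R) (c : R) :
    coeffMap f (yZero R p B c) = yZero S p (B.map f) (f c) := by
  rw [yZero, yZero, map_mul, map_mul, map_sub, map_mul, map_mul, coeffMap_qExpand,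
    coeffMap_qExpand, coeffMap_qExpand, coeffMap_DeltaInvL, coeffMap_E6L,
    coeffMap_E4L, coeffMap_ofPowerSeries, coeffMap_C]

end CommRing

/-! ### modulo `m ∣ 24` -/

section ZMod

variable (m : ℕ)

theorem E4L_zmod (hm : m ∣ 24) : E4L (ZMod m) = 1 := by
  rw [E4L, eisenstein4_map_zmod m (hm.trans (by norm_num)), map_one]

theorem E6L_zmod (hm : m ∣ 24) : E6L (ZMod m) = 1 := by
  rw [E6L, eisenstein6_map_zmod m (hm.trans (by norm_num)), map_one]

theorem yInf_zmod (hm : m ∣ 24) (a : ZMod m) : yInf (ZMod m) (PowerSeries.C a) a = 0 := by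
  rw [yInf, E4L_zmod m hm, E6L_zmod m hm, HahnSeries.ofPowerSeries_C]
  ring

theorem yZero_zmod (hm : m ∣ 24) (p : ℕ) [NeZero p] (b c : ZMod m) :
    yZero (ZMod m) p (PowerSeries.C b) c =
      HahnSeries.C (b - c) * qExpand (ZMod m) p (DeltaInvL (ZMod m)) := by
  rw [yZero, E4L_zmod m hm, E6L_zmod m hm, HahnSeries.ofPowerSeries_C, map_one, map_sub]
  ring

end ZMod

end Fermat.Agent.S16lib.M3
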