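import Mathlib
import Fermat.Agent.ProgramR.Forms.Num
import Fermat.Agent.ProgramR.Forms.CuspCond
import Fermat.Agent.ProgramR.BarField.ToFunField
import Fermat.Agent.S28lib.ThetaJ
import Fermat.Agent.S16lib.M3.Series
import Fermat.Agent.S16lib.Dict.CuspJ

/-!
# S16 library, package M3: the weight-0 function `y = E₆ (G E₄ - c E₆)/Δ` and its expansions

For `G ∈ M₂(Γ₀(N))` and a constant `c`:
* `yW G c ∈ WH0 Γ₀(N)` is the function `E₆ (G E₄ - c E₆)/Δ = numFun G - c (j - 1728)`;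
* `qExpWH0_yW`: its `q`-expansion at `i∞` is `yInf ℂ (qExpansion 1 G) c`;
* `cuspExp_gS_zero_yW`: its `t`-expansion at the cusp `0` is `yZero ℂ N B c`, where `B` is the
  `t`-expansion of `G ∣[2] S`.
-/

set_option autoImplicit false

noncomputable section

open Complex Filter Function
open UpperHalfPlane hiding I
open ModularForm EisensteinSeries MatrixGroups CongruenceSubgroup ModularCurve
open Fermat.Agent.ProgramR Fermat.Agent.ProgramR.LevelOne Fermat.Agent.ProgramR.CuspLocal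
  Fermat.Agent.ProgramR.QExp Fermat.Agent.ProgramR.Forms Fermat.Agent.ProgramR.BarField
  Fermat.Agent.S28lib Fermat.Agent.S16lib.Dict
open scoped Real Topology Manifold

namespace Fermat.Agent.S16lib.M3

local notation "Δ" => ModularForm.discriminant

variable {N : ℕ} [NeZero N]

/-! ### The element `yW G c` of `WH0 Γ₀(N)` -/

lemma modularForm_slash_isBoundedAtImInfty (f : ModularForm (Gamma0 N) 2) (g : SL(2, ℤ)) :
    IsBoundedAtImInfty ((f : ℍ → ℂ) ∣[(2 : ℤ)] g) := by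
  have hc : IsCusp ((Matrix.SpecialLinearGroup.mapGL ℝ g) • (OnePoint.infty : OnePoint ℝ))
      (Subgroup.map (Matrix.SpecialLinearGroup.mapGL ℝ) (Gamma0 N)) := by
    rw [Subgroup.IsArithmetic.isCusp_iff_isCusp_SL2Z, isCusp_SL2Z_iff']
    exact ⟨g, rfl⟩
  exact f.bdd_at_cusps' hc _ rfl

omit [NeZero N] in
lemma modularForm_slash_of_mem (f : ModularForm (Gamma0 N) 2) {γ : SL(2, ℤ)}
    (hγ : γ ∈ Gamma0 N) : ((f : ℍ → ℂ) ∣[(2 : ℤ)] γ) = f :=
  SlashInvariantForm.slash_action_eqn f _ ⟨γ, hγ, rfl⟩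

/-- the numerator of a modular form of weight 2 is a weakly holomorphic modular function. -/
theorem isWH0_numFun_mf (f : ModularForm (Gamma0 N) 2) : IsWH0 (Gamma0 N) (numFun f) where
  mdiff := mdifferentiable_numFun f.holo'
  smul_eq := fun γ hγ z => by
    rw [numFun_smul_eq_numFun_slash, modularForm_slash_of_mem f hγ]
  exists_bdd := ⟨1, fun g => by
    have h1 : IsBoundedAtImInfty ((f : ℍ → ℂ) ∣[(2 : ℤ)] g) :=
      modularForm_slash_isBoundedAtImInfty f g
    have h4 : IsBoundedAtImInfty (fun z : ℍ ↦ E₄ z) := tendsto_E₄_atImInfty.isBigO_one ℝ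
    have h6 : IsBoundedAtImInfty (fun z : ℍ ↦ E₆ z) := tendsto_E₆_atImInfty.isBigO_one ℝ
    refine Asymptotics.IsBigO.congr_left ((h1.mul h4).mul h6) fun z ↦ ?_
    simp only [Pi.mul_apply]
    rw [numFun_smul_eq_numFun_slash, numFun, pow_one,
      div_mul_cancel₀ _ (discriminant_ne_zero z)]⟩

/-- `G E₄ E₆/Δ` as an element of `WH0 Γ₀(N)`. -/
def numW (G : ModularForm (Gamma0 N) 2) : ↥(WH0 (Gamma0 N)) := ⟨numFun G, isWH0_numFun_mf G⟩

/-- `E₆ (G E₄ - c E₆)/Δ` as an element of `WH0 Γ₀(N)`. -/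
def yW (G : ModularForm (Gamma0 N) 2) (c : ℂ) : ↥(WH0 (Gamma0 N)) :=
  numW G - algebraMap ℂ ↥(WH0 (Gamma0 N)) c *
    (WH0.j (Gamma0 N) - algebraMap ℂ ↥(WH0 (Gamma0 N)) 1728)

theorem yW_apply (G : ModularForm (Gamma0 N) 2) (c : ℂ) (z : ℍ) :
    (yW G c : ℍ → ℂ) z = numFun G z - c * (jInv z - 1728) := rfl

theorem yW_smul_mul_discriminant (G : ModularForm (Gamma0 N) 2) (c : ℂ) (g : SL(2, ℤ)) (z : ℍ) :
    (yW G c : ℍ → ℂ) (g • z) * Δ z =
      E₆ z * (((G : ℍ → ℂ) ∣[(2 : ℤ)] g) z * E₄ z - c * E₆ z) := by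
  have hΔ : Δ z ≠ 0 := discriminant_ne_zero z
  rw [yW_apply, numFun_smul_eq_numFun_slash, jInv_smul, jInv_sub_1728, numFun]
  field_simp

/-! ### A ring-homomorphism identity for Laurent expansions -/

theorem laurentExp_rel {h : ℝ} (hh : 0 < h) {Y D F6 F4 Gf : ℍ → ℂ} (c : ℂ)
    (hY : ∃ m, IsMeroAtInfty h m Y) (hD : ∃ m, IsMeroAtInfty h m D)
    (h6 : ∃ m, IsMeroAtInfty h m F6) (h4 : ∃ m, IsMeroAtInfty h m F4)
    (hG : ∃ m, IsMeroAtInfty h m Gf)
    (hrel : ∀ z, Y z * D z = F6 z * (Gf z * F4 z - c * F6 z)) :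
    laurentExp h Y * laurentExp h D =
      laurentExp h F6 * (laurentExp h Gf * laurentExp h F4 - HahnSeries.C c * laurentExp h F6) := by
  let Y' : merRing h hh := ⟨Y, hY⟩
  let D' : merRing h hh := ⟨D, hD⟩
  let F6' : merRing h hh := ⟨F6, h6⟩
  let F4' : merRing h hh := ⟨F4, h4⟩
  let G' : merRing h hh := ⟨Gf, hG⟩
  let cc : merRing h hh := ⟨fun _ => c, 0, IsMeroAtInfty.of_isHolPerBdd (IsHolPerBdd.const h c)⟩
  have hid : Y' * D' = F6' * (G' * F4' - cc * F6') := Subtype.ext (funext fun z => hrel z)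
  have h1 := congrArg (laurentExpHom h hh) hid
  simp only [map_mul, map_sub] at h1
  have hcc : laurentExpHom h hh cc = HahnSeries.C c := laurentExp_const hh c
  rw [hcc] at h1
  exact h1

/-! ### The expansion at `i∞` -/

/-- modular forms of level `Γ₀(N)` are holomorphic, `1`-periodic and bounded at `i∞`. -/
lemma isHolPerBdd_modularForm (f : ModularForm (Gamma0 N) 2) : IsHolPerBdd 1 (f : ℍ → ℂ) where
  holo := f.holo'
  periodic := by
    apply periodic_comp_ofComplex_of_vadd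
    intro τ
    have h := SlashInvariantForm.slash_action_eqn_SL'' f (T_mem_Gamma0 N) τ
    rw [modular_T_smul] at h
    rw [h]
    have : denom (ModularGroup.T : SL(2, ℤ)) τ = 1 := by
      have := Forms.denom_T_zpow 1 τ
      simpa using this
    rw [this]
    simp
  bdd := by
    have h := modularForm_slash_isBoundedAtImInfty f 1
    rwa [SlashAction.slash_one] at h

lemma isHolPerBdd_discriminant' : IsHolPerBdd 1 (fun τ : ℍ => Δ τ) :=
  isHolPerBdd_of_modularForm (CuspForm.discriminant : CuspForm 𝒮ℒ 12)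

theorem laurentExp_E₄ : laurentExp 1 (E₄ : ℍ → ℂ) = E4L ℂ := by
  rw [laurentExp_of_isHolPerBdd one_pos (isHolPerBdd_of_modularForm E₄), qExpansion_E₄, E4L]

theorem laurentExp_E₆ : laurentExp 1 (E₆ : ℍ → ℂ) = E6L ℂ := by
  rw [laurentExp_of_isHolPerBdd one_pos (isHolPerBdd_of_modularForm E₆), qExpansion_E₆, E6L]

/-- **The `q`-expansion of `yW G c` at `i∞`.** -/
theorem qExpWH0_yW (G : ModularForm (Gamma0 N) 2) (c : ℂ) :
    qExpWH0 N (yW G c) = yInf ℂ (qExpansion 1 (G : ℍ → ℂ)) c := by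
  have hrel := laurentExp_rel one_pos c (mem_merRing_of_mem_WH0 N (yW G c).2)
    ⟨0, IsMeroAtInfty.of_isHolPerBdd isHolPerBdd_discriminant'⟩
    ⟨0, IsMeroAtInfty.of_isHolPerBdd (isHolPerBdd_of_modularForm E₆)⟩
    ⟨0, IsMeroAtInfty.of_isHolPerBdd (isHolPerBdd_of_modularForm E₄)⟩
    ⟨0, IsMeroAtInfty.of_isHolPerBdd (isHolPerBdd_modularForm G)⟩
    (fun z => by
      have := yW_smul_mul_discriminant G c 1 z
      rwa [one_smul, SlashAction.slash_one] at this)
  rw [laurentExp_discriminant, laurentExp_E₄, laurentExp_E₆,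
    laurentExp_of_isHolPerBdd one_pos (isHolPerBdd_modularForm G)] at hrel
  rw [qExpWH0_apply, yInf, ← hrel]
  calc laurentExp 1 (yW G c : ℍ → ℂ)
      = laurentExp 1 (yW G c : ℍ → ℂ) * (DeltaQ ℂ * DeltaInvL ℂ) := by
        rw [DeltaQ_mul_DeltaInvL, mul_one]
    _ = DeltaInvL ℂ * (laurentExp 1 (yW G c : ℍ → ℂ) * DeltaQ ℂ) := by ring

/-! ### The expansion at the cusp `0` -/

variable (N)

theorem isMeroAtInfty_period_of_one {f : ℍ → ℂ} {m : ℕ} (hf : IsMeroAtInfty 1 m f) :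
    IsMeroAtInfty (N : ℝ) (N * m) f := by
  have h := isMeroAtInfty_period_mul one_pos (NeZero.pos N) hf
  rwa [mul_one] at h

theorem laurentExp_period_of_one {f : ℍ → ℂ} {m : ℕ} (hf : IsMeroAtInfty 1 m f) :
    laurentExp (N : ℝ) f = qExpand ℂ N (laurentExp 1 f) := by
  have h := laurentExp_period_mul (n := N) one_pos hf
  rwa [mul_one] at h

variable {N}

/-- **The `t`-expansion of `yW G c` at the cusp `0`**, in terms of the `t`-expansion of
`G ∣[2] S`. -/
theorem cuspExp_gS_zero_yW (G : ModularForm (Gamma0 N) 2) (c : ℂ)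
    (hGf : IsHolPerBdd (N : ℝ) ((G : ℍ → ℂ) ∣[(2 : ℤ)] ModularGroup.S)) :
    cuspExp N (gS 0) (yW G c) =
      yZero ℂ N (qExpansion (N : ℝ) ((G : ℍ → ℂ) ∣[(2 : ℤ)] ModularGroup.S)) c := by
  have hN := natCast_pos_real N
  have hΔ := IsMeroAtInfty.of_isHolPerBdd isHolPerBdd_discriminant'
  have h4 := IsMeroAtInfty.of_isHolPerBdd (isHolPerBdd_of_modularForm E₄)
  have h6 := IsMeroAtInfty.of_isHolPerBdd (isHolPerBdd_of_modularForm E₆)
  have hY : ∃ m, IsMeroAtInfty (N : ℝ) m (slTranslate (gS 0) (yW G c : ℍ → ℂ)) :=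
    exists_isMeroAtInfty_slTranslate (mem_WH0.mp (yW G c).2) (gS 0) (NeZero.pos N)
      (conj_T_zpow_N_mem N (gS 0))
  have hrel := laurentExp_rel hN c hY
    ⟨_, isMeroAtInfty_period_of_one N hΔ⟩ ⟨_, isMeroAtInfty_period_of_one N h6⟩
    ⟨_, isMeroAtInfty_period_of_one N h4⟩ ⟨0, IsMeroAtInfty.of_isHolPerBdd hGf⟩
    (fun z => by
      rw [slTranslate_apply, gS, inv_inv, zpow_zero, mul_one]
      exact yW_smul_mul_discriminant G c ModularGroup.S z)
  rw [laurentExp_period_of_one N hΔ, laurentExp_period_of_one N h4,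
    laurentExp_period_of_one N h6, laurentExp_discriminant, laurentExp_E₄, laurentExp_E₆,
    laurentExp_of_isHolPerBdd hN hGf] at hrel
  rw [cuspExp_apply, yZero, ← hrel]
  have hone : qExpand ℂ N (DeltaQ ℂ) * qExpand ℂ N (DeltaInvL ℂ) = 1 := by
    rw [← map_mul, DeltaQ_mul_DeltaInvL, map_one]
  calc laurentExp (N : ℝ) (slTranslate (gS 0) (yW G c : ℍ → ℂ))
      = laurentExp (N : ℝ) (slTranslate (gS 0) (yW G c : ℍ → ℂ)) *
          (qExpand ℂ N (DeltaQ ℂ) * qExpand ℂ N (DeltaInvL ℂ)) := by rw [hone, mul_one]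
    _ = qExpand ℂ N (DeltaInvL ℂ) *
          (laurentExp (N : ℝ) (slTranslate (gS 0) (yW G c : ℍ → ℂ)) * qExpand ℂ N (DeltaQ ℂ)) := by
        ring

/-! ### Composition with `z ↦ z/N` -/

variable (N)

theorem isHolPerBdd_comp_divH {f : ℍ → ℂ} (hf : IsHolPerBdd 1 f) :
    IsHolPerBdd (N : ℝ) (fun z => f (divH N 0 z)) where
  holo := by
    have hN : (0 : ℝ) < N := natCast_pos_real N
    have him : ∀ z : ℂ, (z / (N : ℂ)).im = z.im / N := by
      intro z
      have : ((N : ℕ) : ℂ) = ((N : ℝ) : ℂ) := by push_cast; rfl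
      rw [this, Complex.div_ofReal_im]
    rw [UpperHalfPlane.mdifferentiable_iff]
    have h1 := UpperHalfPlane.mdifferentiable_iff.mp hf.holo
    have h2 : DifferentiableOn ℂ ((f ∘ ofComplex) ∘ fun z : ℂ => z / (N : ℂ))
        {z | 0 < z.im} := by
      refine h1.comp (by fun_prop) ?_
      intro z hz
      simp only [Set.mem_ofPred_eq] at hz ⊢
      rw [him]
      exact div_pos hz hN
    refine h2.congr fun z hz => ?_
    have hz' : 0 < (z / (N : ℂ)).im := by
      rw [him]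
      exact div_pos hz hN
    simp only [comp_apply, ofComplex_apply_of_im_pos hz, ofComplex_apply_of_im_pos hz']
    congr 1
    apply UpperHalfPlane.ext
    rw [coe_divH]
    simp
  periodic := periodic_comp_ofComplex_of_vadd fun τ => by
    have hN : (N : ℂ) ≠ 0 := Nat.cast_ne_zero.mpr (NeZero.ne N)
    have h1 : divH N 0 ((N : ℝ) +ᵥ τ) = (1 : ℝ) +ᵥ divH N 0 τ := by
      apply UpperHalfPlane.ext
      rw [coe_divH, UpperHalfPlane.coe_vadd, UpperHalfPlane.coe_vadd, coe_divH]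
      push_cast
      field_simp
      ring
    rw [h1]
    exact vadd_of_periodic_comp_ofComplex hf.periodic _
  bdd := by
    have hN : (0 : ℝ) < N := natCast_pos_real N
    have h2 := hf.bdd
    rw [isBoundedAtImInfty_iff] at h2 ⊢
    obtain ⟨M, A, hMA⟩ := h2
    refine ⟨M, N * A, fun τ hτ => hMA _ ?_⟩
    have him : (divH N 0 τ).im = τ.im / N := by
      have h3 : (divH N 0 τ).im = (((τ : ℂ) + ((0 : ℝ) : ℂ)) / (N : ℂ)).im := rfl
      have : ((N : ℕ) : ℂ) = ((N : ℝ) : ℂ) := by push_cast; rfl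
      rw [h3, this, Complex.div_ofReal_im]
      simp
    rw [him, le_div_iff₀ hN, mul_comm]
    exact hτ

theorem qExpansion_comp_divH {f : ℍ → ℂ} (hf : IsHolPerBdd 1 f) :
    qExpansion (N : ℝ) (fun z => f (divH N 0 z)) = qExpansion 1 f := by
  have h := qExpansion_comp_of_qParam_pow (d := 1) one_pos (natCast_pos_real N) hf
    (isHolPerBdd_comp_divH N hf) (divH N 0) (fun _ => rfl) ?_ one_pos
  · rw [h]
    ext k
    rw [coeff_expandPS, if_pos (one_dvd k), Nat.div_one]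
  · intro τ
    rw [pow_one, Function.Periodic.qParam, Function.Periodic.qParam, coe_divH]
    congr 1
    push_cast
    have hN : (N : ℂ) ≠ 0 := Nat.cast_ne_zero.mpr (NeZero.ne N)
    field_simp
    ring

end Fermat.Agent.S16lib.M3
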