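import Mathlib
import Fermat.Agent.S16lib.M3.YFun
import Fermat.Agent.S16lib.M3.Core
import Fermat.Agent.S16lib.Op.Weight2

/-!
# S16 library, package M3: the `W`-sign test (MT3)

`mt3`: let `p` be a prime, `ℓ ≠ p` a prime and `ℓ^e ∣ 24`.  If `G ∈ M₂(Γ₀(p))` has integral
`q`-expansion with constant term prime to `ℓ` and all higher coefficients divisible by `ℓ^e`,
then `ℓ^e ∣ p + 1`.
-/

set_option autoImplicit false

noncomputable section

open Complex Filter Function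
open UpperHalfPlane hiding I
open ModularForm EisensteinSeries MatrixGroups CongruenceSubgroup ModularCurve
open Fermat.Agent.ProgramR Fermat.Agent.ProgramR.LevelOne Fermat.Agent.ProgramR.CuspLocal
  Fermat.Agent.ProgramR.QExp Fermat.Agent.ProgramR.Forms Fermat.Agent.ProgramR.BarField
  Fermat.Agent.S28lib Fermat.Agent.S16lib.Dict Fermat.Agent.S16lib.Op
open scoped Real Topology Manifold

namespace Fermat.Agent.S16lib.M3

section LPow

variable (ℓ : ℕ) [hℓ : Fact ℓ.Prime]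

omit hℓ in
/-- An integer in `ℓ^e ℤ_(ℓ)` is divisible by `ℓ^e`. -/
theorem dvd_of_intCast_mem_lpow {e : ℕ} {m : ℤ} (h : (m : ℚ) ∈ lpow ℓ e) :
    ((ℓ : ℤ) ^ e) ∣ m := by
  obtain ⟨u, hu, h⟩ := h
  have hu' : u.den.Coprime ℓ := hu
  have h1 : (m : ℚ) * (u.den : ℚ) = (ℓ : ℚ) ^ e * (u.num : ℚ) := by
    rw [h, mul_assoc, Rat.mul_den_eq_num]
  have h2 : m * (u.den : ℤ) = (ℓ : ℤ) ^ e * u.num := by
    exact_mod_cast h1
  have h3 : (ℓ : ℤ) ^ e ∣ m * (u.den : ℤ) := ⟨u.num, h2⟩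
  have hcop : IsCoprime ((ℓ : ℤ) ^ e) (u.den : ℤ) := by
    apply IsCoprime.pow_left
    rw [Int.isCoprime_iff_gcd_eq_one, Int.gcd_natCast_natCast, Nat.gcd_comm]
    exact hu'
  exact hcop.dvd_of_dvd_mul_right h3

omit hℓ in
/-- An integral series vanishing mod `ℓ^e` lies in `ℓ^e ℤ_(ℓ)((q))`. -/
theorem coeffMap_rat_mem_seriesIn_of_zmod_eq_zero {e : ℕ} {Z : LaurentSeries ℤ}
    (h : coeffMap (Int.castRingHom (ZMod (ℓ ^ e))) Z = 0) :
    coeffMap (Int.castRingHom ℚ) Z ∈ seriesIn (lpow ℓ e) := by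
  intro n
  have h1 : (coeffMap (Int.castRingHom ℚ) Z).coeff n = ((Z.coeff n : ℤ) : ℚ) := rfl
  have h2 : ((Z.coeff n : ℤ) : ZMod (ℓ ^ e)) = 0 := by
    have := congrArg (fun w => w.coeff n) h
    simpa [coeffMap_coeff] using this
  rw [ZMod.intCast_zmod_eq_zero_iff_dvd] at h2
  obtain ⟨k, hk⟩ := h2
  rw [h1, hk]
  refine ⟨(k : ℚ), intCast_mem_ratLocalizedAt ℓ k, ?_⟩
  push_cast
  ring

end LPow

/-! ### The slash by `S` -/

section Slash

variable (p : ℕ) [hp : Fact p.Prime]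

theorem slash_S_apply (G : ModularForm (Gamma0 p) 2) (τ : ℍ) :
    ((G : ℍ → ℂ) ∣[(2 : ℤ)] ModularGroup.S) τ = (p : ℂ)⁻¹ * (wSlash p G) (divH p 0 τ) := by
  have h := slash_stRep_apply p 2 (G : ℍ → ℂ) 0 τ
  rw [stRep, pow_zero, mul_one] at h
  rw [h, coe_wSlash]
  have h2 : ModularForm.heckeMatrix p 0 • τ = divH p 0 τ := by
    apply UpperHalfPlane.ext
    rw [ModularForm.coe_heckeMatrix_smul hp.out.ne_zero, coe_divH]
    simp
  rw [h2]
  norm_num [zpow_neg_one]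

theorem isHolPerBdd_slash_S (G : ModularForm (Gamma0 p) 2) :
    IsHolPerBdd (p : ℝ) ((G : ℍ → ℂ) ∣[(2 : ℤ)] ModularGroup.S) := by
  have h := (IsHolPerBdd.const (p : ℝ) ((p : ℂ)⁻¹)).mul
    (isHolPerBdd_comp_divH p (isHolPerBdd_modularForm (wSlash p G)))
  have e : ((G : ℍ → ℂ) ∣[(2 : ℤ)] ModularGroup.S) =
      (fun _ => (p : ℂ)⁻¹) * fun z => (wSlash p G) (divH p 0 z) :=
    funext fun τ => slash_S_apply p G τ
  rw [e]
  exact h

theorem qExpansion_slash_S (G : ModularForm (Gamma0 p) 2) :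
    qExpansion (p : ℝ) ((G : ℍ → ℂ) ∣[(2 : ℤ)] ModularGroup.S) =
      (p : ℂ)⁻¹ • qExpansion 1 (wSlash p G : ℍ → ℂ) := by
  have hH := isHolPerBdd_modularForm (wSlash p G)
  have e : ((G : ℍ → ℂ) ∣[(2 : ℤ)] ModularGroup.S) =
      (p : ℂ)⁻¹ • fun z => (wSlash p G) (divH p 0 z) :=
    funext fun τ => slash_S_apply p G τ
  rw [e, qExpansion_smul ((isHolPerBdd_comp_divH p hH).analyticAt (natCast_pos_real p)),
    qExpansion_comp_divH p hH]

end Slash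

/-! ### The main theorem -/

section Main

variable (p ℓ : ℕ) [hp : Fact p.Prime] [hℓ : Fact ℓ.Prime]

theorem mt3_aux (hℓp : ℓ ≠ p) (e : ℕ) (h24 : ℓ ^ e ∣ 24) (G : ModularForm (Gamma0 p) 2)
    (a : ℕ → ℤ) (ha : ∀ k, ModularFormClass.qCoeff G k = a k)
    (h0 : ¬ (ℓ : ℤ) ∣ a 0) (hk : ∀ k, 1 ≤ k → ((ℓ : ℤ) ^ e) ∣ a k) : ℓ ^ e ∣ p + 1 := by
  have hp0 : (p : ℂ) ≠ 0 := Nat.cast_ne_zero.mpr hp.out.ne_zero
  have hmcast : ((ℓ ^ e : ℕ) : ℤ) = (ℓ : ℤ) ^ e := by push_cast; rfl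
  -- the scaled form and the integral series
  set G' : ModularForm (Gamma0 p) 2 := (p : ℂ) • G with hG'
  set c' : ℤ := (p : ℤ) * a 0 with hc'
  set A' : PowerSeries ℤ := PowerSeries.mk fun k => (p : ℤ) * a k with hA'def
  set B : PowerSeries ℤ := PowerSeries.mk fun n => - a (n * p) with hBdef
  have hqG : ∀ k, PowerSeries.coeff k (qExpansion 1 (G : ℍ → ℂ)) = a k := fun k => ha k
  -- `q`-expansion of `G'`
  have hA' : qExpansion 1 (G' : ℍ → ℂ) = A'.map (Int.castRingHom ℂ) := by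
    have e1 : (G' : ℍ → ℂ) = (p : ℂ) • (G : ℍ → ℂ) := rfl
    rw [e1, qExpansion_smul ((isHolPerBdd_modularForm G).analyticAt one_pos)]
    ext k
    rw [PowerSeries.coeff_smul, hqG, PowerSeries.coeff_map, PowerSeries.coeff_mk, eq_intCast]
    push_cast
    rfl
  -- `t`-expansion of `G' ∣ S`
  have hB : qExpansion (p : ℝ) ((G' : ℍ → ℂ) ∣[(2 : ℤ)] ModularGroup.S) =
      B.map (Int.castRingHom ℂ) := by
    rw [qExpansion_slash_S p G', hG', wSlash_smul]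
    have e1 : (((p : ℂ) • wSlash p G : ModularForm (Gamma0 p) 2) : ℍ → ℂ) =
        (p : ℂ) • (wSlash p G : ℍ → ℂ) := rfl
    rw [e1, qExpansion_smul ((isHolPerBdd_modularForm (wSlash p G)).analyticAt one_pos),
      smul_smul, inv_mul_cancel₀ hp0, one_smul]
    ext n
    rw [PowerSeries.coeff_map, PowerSeries.coeff_mk, eq_intCast]
    have h1 := qCoeff_wSlash p G n
    rw [ha] at h1
    rw [ModularFormClass.qCoeff] at h1
    rw [h1]
    push_cast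
    rfl
  -- reductions mod `ℓ^e`
  have hA'map : A'.map (Int.castRingHom (ZMod (ℓ ^ e))) =
      PowerSeries.C ((Int.castRingHom (ZMod (ℓ ^ e))) c') := by
    ext k
    rw [PowerSeries.coeff_map, PowerSeries.coeff_mk, PowerSeries.coeff_C]
    split_ifs with hk0
    · rw [hk0]
    · rw [eq_intCast, ZMod.intCast_zmod_eq_zero_iff_dvd, hmcast]
      exact dvd_mul_of_dvd_right (hk k (Nat.one_le_iff_ne_zero.mpr hk0)) _
  have hBmap : B.map (Int.castRingHom (ZMod (ℓ ^ e))) =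
      PowerSeries.C ((Int.castRingHom (ZMod (ℓ ^ e))) (- a 0)) := by
    ext k
    rw [PowerSeries.coeff_map, PowerSeries.coeff_mk, PowerSeries.coeff_C]
    split_ifs with hk0
    · rw [hk0, zero_mul]
    · rw [eq_intCast, ZMod.intCast_zmod_eq_zero_iff_dvd, hmcast, dvd_neg]
      refine hk (k * p) ?_
      exact Nat.one_le_iff_ne_zero.mpr (Nat.mul_ne_zero hk0 hp.out.ne_zero)
  -- the function and its two expansions
  have hy : qExpWH0 p (yW G' (c' : ℂ)) =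
      coeffMap (algebraMap ℚ ℂ) (coeffMap (Int.castRingHom ℚ) (yInf ℤ A' c')) := by
    rw [qExpWH0_yW, hA', ← coeffMap_int_complex, coeffMap_yInf, eq_intCast]
  have hs : coeffMap (Int.castRingHom ℚ) (yInf ℤ A' c') ∈ seriesIn (lpow ℓ e) := by
    apply coeffMap_rat_mem_seriesIn_of_zmod_eq_zero
    rw [coeffMap_yInf, hA'map, yInf_zmod _ h24]
  have hY : cuspExp p (gS 0) (yW G' (c' : ℂ)) =
      coeffMap (algebraMap ℚ ℂ) (coeffMap (Int.castRingHom ℚ) (yZero ℤ p B c')) := by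
    rw [cuspExp_gS_zero_yW G' (c' : ℂ) (isHolPerBdd_slash_S p G'), hB, ← coeffMap_int_complex,
      coeffMap_yZero, eq_intCast]
  have hU : coeffMap (Int.castRingHom (ZMod ℓ)) (qExpand ℤ p (DeltaInvL ℤ)) ≠ 0 := by
    rw [coeffMap_qExpand, coeffMap_DeltaInvL]
    intro h0'
    have hone : qExpand (ZMod ℓ) p (DeltaQ (ZMod ℓ)) * qExpand (ZMod ℓ) p (DeltaInvL (ZMod ℓ)) = 1 := by
      rw [← map_mul, DeltaQ_mul_DeltaInvL, map_one]
    rw [h0', mul_zero] at hone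
    exact zero_ne_one hone
  have hYU : coeffMap (Int.castRingHom ℚ) (yZero ℤ p B c') -
      HahnSeries.C (((- a 0 - c' : ℤ) : ℚ)) *
        coeffMap (Int.castRingHom ℚ) (qExpand ℤ p (DeltaInvL ℤ)) ∈ seriesIn (lpow ℓ e) := by
    have e1 : coeffMap (Int.castRingHom ℚ) (yZero ℤ p B c') -
        HahnSeries.C (((- a 0 - c' : ℤ) : ℚ)) *
          coeffMap (Int.castRingHom ℚ) (qExpand ℤ p (DeltaInvL ℤ)) =
        coeffMap (Int.castRingHom ℚ) (yZero ℤ p B c' -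
          HahnSeries.C (- a 0 - c') * qExpand ℤ p (DeltaInvL ℤ)) := by
      rw [map_sub, map_mul, coeffMap_C, eq_intCast]
    rw [e1]
    apply coeffMap_rat_mem_seriesIn_of_zmod_eq_zero
    rw [map_sub, map_mul, coeffMap_C, coeffMap_yZero, hBmap, yZero_zmod _ h24, coeffMap_qExpand,
      coeffMap_DeltaInvL, map_sub (Int.castRingHom (ZMod (ℓ ^ e))) (-a 0) c', sub_self]
  have hu := mem_lpow_of_cusp_zero_congr ℓ p hℓp (yW G' (c' : ℂ)) _ hy e hs _ hY _ _ hU hYU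
  -- arithmetic
  have h1 : ((ℓ : ℤ) ^ e) ∣ - a 0 - c' := dvd_of_intCast_mem_lpow ℓ hu
  have h2 : ((ℓ : ℤ) ^ e) ∣ a 0 * ((p : ℤ) + 1) := by
    have : - a 0 - c' = -(a 0 * ((p : ℤ) + 1)) := by rw [hc']; ring
    rw [this, dvd_neg] at h1
    exact h1
  have hprime : Prime (ℓ : ℤ) := Nat.prime_iff_prime_int.mp hℓ.out
  have hcop : IsCoprime ((ℓ : ℤ) ^ e) (a 0) :=
    IsCoprime.pow_left ((hprime.irreducible.coprime_iff_not_dvd).mpr h0)
  have h3 : ((ℓ : ℤ) ^ e) ∣ (p : ℤ) + 1 := hcop.dvd_of_dvd_mul_left h2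
  have h4 : ((ℓ ^ e : ℕ) : ℤ) ∣ ((p + 1 : ℕ) : ℤ) := by
    rw [hmcast]
    push_cast
    exact h3
  exact Int.natCast_dvd_natCast.mp h4

/-- **MT3, the `W`-sign test.** -/
theorem mt3 (hℓp : ℓ ≠ p) (e : ℕ) (h24 : ℓ ^ e ∣ 24) (hnd : ¬ ℓ ^ e ∣ p + 1)
    (G : ModularForm (Gamma0 p) 2)
    (hint : ∀ k, ∃ m : ℤ, ModularFormClass.qCoeff G k = (m : ℂ))
    (h0 : ∀ m : ℤ, ModularFormClass.qCoeff G 0 = (m : ℂ) → ¬ (ℓ : ℤ) ∣ m)
    (hk : ∀ k, 1 ≤ k → ∃ m : ℤ, ModularFormClass.qCoeff G k = ((ℓ : ℂ) ^ e) * (m : ℂ)) :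
    False := by
  choose a ha using hint
  apply hnd
  refine mt3_aux p ℓ hℓp e h24 G a ha (h0 _ (ha 0)) (fun k hk1 => ?_)
  obtain ⟨m, hm⟩ := hk k hk1
  rw [ha k] at hm
  have : a k = (ℓ : ℤ) ^ e * m := by exact_mod_cast hm
  exact ⟨m, this⟩

end Main

end Fermat.Agent.S16lib.M3
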