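import Mathlib
import Fermat.Agent.S16lib.M3.Main
import Fermat.Agent.S16lib.UpperBound

/-!
# S16 library, package M3: MT3 in the `NoUnitConst` shape of package A

* `noUnitConst_of_not_dvd`: `ℓ ≠ p`, `ℓ^e ∣ 24`, `ℓ^e ∤ p + 1` ⟹ `NoUnitConst p ℓ e`;
* `mt3_1 : p % 3 = 1 → NoUnitConst p 3 1`;
* `mt2_1 : p % 4 = 1 → NoUnitConst p 2 2`;
* `mt2_3_of_mod_eight : p % 8 = 3 → NoUnitConst p 2 3`.
-/

set_option autoImplicit false

namespace Fermat.Agent.S16lib.M3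

open Fermat.Agent.S16lib.Red16

variable (p : ℕ) [hp : Fact p.Prime]

theorem noUnitConst_of_not_dvd (ℓ : ℕ) [Fact ℓ.Prime] (hℓp : ℓ ≠ p) (e : ℕ) (h24 : ℓ ^ e ∣ 24)
    (hnd : ¬ ℓ ^ e ∣ p + 1) : NoUnitConst p ℓ e :=
  fun G hint h0 hk => mt3 p ℓ hℓp e h24 hnd G hint h0 hk

theorem mt3_1 (h : p % 3 = 1) : NoUnitConst p 3 1 := by
  have : Fact (Nat.Prime 3) := ⟨Nat.prime_three⟩
  refine noUnitConst_of_not_dvd p 3 ?_ 1 (by norm_num) ?_
  · rintro rfl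
    norm_num at h
  · rw [pow_one, Nat.dvd_iff_mod_eq_zero]
    omega

theorem mt2_1 (h : p % 4 = 1) : NoUnitConst p 2 2 := by
  have : Fact (Nat.Prime 2) := ⟨Nat.prime_two⟩
  refine noUnitConst_of_not_dvd p 2 ?_ 2 (by norm_num) ?_
  · rintro rfl
    norm_num at h
  · rw [Nat.dvd_iff_mod_eq_zero]
    norm_num
    omega

theorem mt2_3_of_mod_eight (h : p % 8 = 3) : NoUnitConst p 2 3 := by
  have : Fact (Nat.Prime 2) := ⟨Nat.prime_two⟩
  refine noUnitConst_of_not_dvd p 2 ?_ 3 (by norm_num) ?_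
  · rintro rfl
    norm_num at h
  · rw [Nat.dvd_iff_mod_eq_zero]
    norm_num
    omega

end Fermat.Agent.S16lib.M3
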